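/-
helper34: P-MW / MW-A1-REALPER (row 721).  Real form of Eichler–Shimura: every real parabolic
homomorphism of `Γ₀(N)` is the imaginary part of the period homomorphism of a cusp form.

Proof: `i r = P a + ι (P b)` by the landed S21 (`a = f + g`, `b = f - g`).  The holomorphic
function `A + conj (B ∘ J)` (`A`, `B` the equivariant primitives of `a`, `b`) changes by
`P a γ + conj (P b (J γ J))` under `γ`, which is purely imaginary; so it is constant by the
maximum principle, i.e. `P b (J γ J) = - conj (P a γ)`, and `r = 2 Im (P a) = Im (P (2 a))`.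
-/
import Fermat.Agent.S21
import Fermat.Agent.H84.MWDiv.Interfaces

set_option autoImplicit false

namespace Fermat.Agent.H34.MWDiv

open UpperHalfPlane CongruenceSubgroup Filter Topology ModularCurve ModularCurve.Period
open scoped MatrixGroups Manifold ComplexConjugate

/-- **MW-A1-REALPER.** -/
theorem realPeriod (N : ℕ) [NeZero N] : Fermat.Agent.H84.MWDiv.RealPeriodStatement N := by
  intro r hr
  have hprim : ∀ f : CuspForm (Gamma0 N) 2, ∃ F : ℍ → ℂ, HasEquivariantPrimitive N f F :=
    fun f => Fermat.Agent.H63.exists_hasEquivariantPrimitive N f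
  obtain ⟨pml, hpml⟩ := Fermat.Agent.H31.existsPeriodMapLinear_of hprim
  -- the complex parabolic homomorphism `i r`
  let ψ : Additive (Gamma0 N) →+ ℂ :=
    { toFun := fun γ => Complex.I * ((r γ : ℝ) : ℂ)
      map_zero' := by simp
      map_add' := fun a b => by simp [mul_add] }
  have hψapp : ∀ γ : Gamma0 N, ψ (Additive.ofMul γ)
      = Complex.I * ((r (Additive.ofMul γ) : ℝ) : ℂ) := fun _ => rfl
  have hψ : ψ ∈ parabolicHoms ℂ (Gamma0 N) ℂ := by
    intro γ hγ
    rw [hψapp, hr γ hγ]
    simp
  rw [← (Fermat.Agent.S21.result N).2] at hψ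
  obtain ⟨⟨f, g⟩, hfg⟩ := hψ
  obtain ⟨A, hA⟩ := hprim (f + g)
  obtain ⟨B, hB⟩ := hprim (f - g)
  -- linearity
  have hadd : ∀ γ : Gamma0 N, periodMap N (f + g) (Additive.ofMul γ)
      = periodMap N f (Additive.ofMul γ) + periodMap N g (Additive.ofMul γ) := by
    intro γ
    rw [← hpml, ← hpml, ← hpml, map_add]
    rfl
  have hsub : ∀ γ : Gamma0 N, periodMap N (f - g) (Additive.ofMul γ)
      = periodMap N f (Additive.ofMul γ) - periodMap N g (Additive.ofMul γ) := by
    intro γ
    rw [← hpml, ← hpml, ← hpml, map_sub]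
    rfl
  -- the key equation
  have hkey : ∀ γ : Gamma0 N, periodMap N (f + g) (Additive.ofMul γ)
      + periodMap N (f - g) (Additive.ofMul (jConjGamma0 N γ))
        = Complex.I * ((r (Additive.ofMul γ) : ℝ) : ℂ) := by
    intro γ
    rw [← hψapp, ← hfg, Fermat.Agent.H31.periodHomPair_apply hprim f g γ, hadd, hsub]
    ring
  -- the auxiliary holomorphic function
  have hAmd : MDiff A := Fermat.Agent.H31.mdiff_of_hasEquivariantPrimitive hA
  have hBmd : MDiff B := Fermat.Agent.H31.mdiff_of_hasEquivariantPrimitive hB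
  have hBs : MDiff (fun z : ℍ => conj (B (UpperHalfPlane.J • z))) :=
    Fermat.Agent.H31.mdiff_reflect hBmd
  have hper : ∀ (γ : Gamma0 N) (z : ℍ),
      (A ((γ : SL(2, ℤ)) • z) + conj (B (UpperHalfPlane.J • ((γ : SL(2, ℤ)) • z))))
        - (A z + conj (B (UpperHalfPlane.J • z)))
        = periodMap N (f + g) (Additive.ofMul γ)
          + conj (periodMap N (f - g) (Additive.ofMul (jConjGamma0 N γ))) := by
    intro γ z
    rw [Fermat.Agent.H31.periodMap_apply_of_hasEquivariantPrimitive' hA γ z,
      ← Fermat.Agent.H31.reflect_sub_eq hB γ z]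
    ring
  have hconst : ∃ c : ℂ, ∀ z : ℍ, A z + conj (B (UpperHalfPlane.J • z)) = c := by
    refine Fermat.Agent.H31.const_of_re_invariant N
      (H := fun z : ℍ => A z + conj (B (UpperHalfPlane.J • z))) (hAmd.add hBs) ?_ ?_
    · intro γ hγ
      refine ⟨periodMap N (f + g) (Additive.ofMul (⟨γ, hγ⟩ : Gamma0 N))
          + conj (periodMap N (f - g) (Additive.ofMul (jConjGamma0 N ⟨γ, hγ⟩))), ?_,
        fun z => hper ⟨γ, hγ⟩ z⟩
      have h := congrArg Complex.re (hkey ⟨γ, hγ⟩)
      simp only [Complex.add_re, Complex.mul_re, Complex.I_re, Complex.I_im,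
        Complex.ofReal_re, Complex.ofReal_im, zero_mul, sub_zero, mul_zero] at h
      simp only [Complex.add_re, Complex.conj_re]
      linarith
    · intro δ
      obtain ⟨L, hL⟩ := hA.2.2.2 δ
      obtain ⟨L', hL'⟩ := Fermat.Agent.H31.reflect_tendsto hB δ
      exact ⟨L + L', hL.add hL'⟩
  obtain ⟨c, hc⟩ := hconst
  have hzero : ∀ γ : Gamma0 N, periodMap N (f + g) (Additive.ofMul γ)
      + conj (periodMap N (f - g) (Additive.ofMul (jConjGamma0 N γ))) = 0 := by
    intro γ
    rw [← hper γ UpperHalfPlane.I, hc, hc, sub_self]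
  -- conclusion
  refine ⟨(2 : ℂ) • (f + g), fun γ => ?_⟩
  have h2 : periodMap N ((2 : ℂ) • (f + g)) (Additive.ofMul γ)
      = 2 * periodMap N (f + g) (Additive.ofMul γ) := by
    rw [← hpml, ← hpml, map_smul]
    rfl
  rw [h2]
  have hi := congrArg Complex.im (hkey γ)
  have hz := congrArg Complex.im (hzero γ)
  simp only [Complex.add_im, Complex.mul_im, Complex.I_re, Complex.I_im,
    Complex.ofReal_re, Complex.ofReal_im, one_mul, mul_zero, zero_add] at hi
  simp only [Complex.add_im, Complex.conj_im, Complex.zero_im] at hz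
  have h3 : ((2 : ℂ) * periodMap N (f + g) (Additive.ofMul γ)).im
      = 2 * (periodMap N (f + g) (Additive.ofMul γ)).im := by
    simp [Complex.mul_im]
  rw [h3]
  linarith

end Fermat.Agent.H34.MWDiv
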