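/-
helper34: P-MW / MW-A1-ART-i (row 819), part 2: integrality of the trace.

`theorem traceIntegral : Fermat.Agent.H84.MWDiv.TraceIntegralStatement`:
if `ord_v G ≥ -(e_v - 1)` at all places `v` which are not poles of `y`, then `Tr_{F/K(y)} G` is a
polynomial in `y`.

Frame: `A := K[y] = Algebra.adjoin K {y}` (a PID), `E := K⟮y⟯ = Frac A`,
`B := integralClosure A F`; the height one primes of `B` are the places with `ord_v y ≥ 0`
(landed dictionary of helper19), and `G` lies in the inverse different.
-/
import Fermat.Agent.H34.MWDiv.TraceIntegralCore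
import Fermat.Agent.H84.MWDiv.Interfaces3

set_option autoImplicit false
set_option linter.style.haveILetI false

noncomputable section

open Polynomial IntermediateField AlgebraicCurve IsDedekindDomain
open scoped IntermediateField.algebraAdjoinAdjoin nonZeroDivisors

namespace Fermat.Agent.H34.MWDiv

open Fermat.Agent.H27.ESD (ramIdx)
open Fermat.Agent.H56.RH (expAt)

section Setup

variable {K F : Type} [Field K] [Field F] [Algebra K F]

/-- `K[y]` is a principal ideal ring for transcendental `y`. -/
theorem adjoin_isPrincipalIdealRing {y : F} (hy : Transcendental K y) :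
    IsPrincipalIdealRing (Algebra.adjoin K {y}) :=
  IsPrincipalIdealRing.of_surjective
    ((Polynomial.algEquivOfTranscendental K y hy : K[X] ≃ₐ[K] Algebra.adjoin K {y}) :
      K[X] →+* Algebra.adjoin K {y})
    (Polynomial.algEquivOfTranscendental K y hy).surjective

/-- `y - c` as an element of `K[y]`. -/
def linElt (y : F) (c : K) : Algebra.adjoin K {y} :=
  ⟨y, Algebra.self_mem_adjoin_singleton K y⟩ - algebraMap K (Algebra.adjoin K {y}) c

theorem coe_linElt (y : F) (c : K) :
    algebraMap (Algebra.adjoin K {y}) F (linElt y c) = y - algebraMap K F c := rfl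

theorem linElt_eq {y : F} (hy : Transcendental K y) (c : K) :
    linElt y c = Polynomial.algEquivOfTranscendental K y hy (X - C c) := by
  rw [map_sub, Polynomial.algEquivOfTranscendental_apply_X, ← Polynomial.algebraMap_eq,
    AlgEquiv.commutes]
  rfl

theorem linElt_irreducible {y : F} (hy : Transcendental K y) (c : K) :
    Irreducible (linElt y c) := by
  rw [linElt_eq hy c]
  exact (MulEquiv.irreducible_iff
    (Polynomial.algEquivOfTranscendental K y hy).toMulEquiv).mpr (Polynomial.irreducible_X_sub_C c)

end Setup

/-- **MW-A1-ART-i.** -/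
theorem traceIntegral : Fermat.Agent.H84.MWDiv.TraceIntegralStatement := by
  intro K F _ _ _ _ _ g hR y hy hfin G hG
  haveI : IsPrincipalIdealRing (Algebra.adjoin K {y}) := adjoin_isPrincipalIdealRing hy
  haveI : IsDedekindDomain (Algebra.adjoin K {y}) := inferInstance
  haveI : Algebra.IsSeparable K⟮y⟯ F := inferInstance
  haveI : IsDedekindDomain (integralClosure (Algebra.adjoin K {y}) F) :=
    integralClosure.isDedekindDomain (Algebra.adjoin K {y}) K⟮y⟯ F
  haveI : IsFractionRing (integralClosure (Algebra.adjoin K {y}) F) F :=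
    integralClosure.isFractionRing_of_finite_extension K⟮y⟯ F
  haveI : Module.Finite (Algebra.adjoin K {y}) (integralClosure (Algebra.adjoin K {y}) F) :=
    IsIntegralClosure.finite (Algebra.adjoin K {y}) K⟮y⟯ F _
  have hA : Set.range (algebraMap (Algebra.adjoin K {y}) F) = (Algebra.adjoin K {y} : Set F) :=
    Subtype.range_coe
  have key : Algebra.trace K⟮y⟯ F G ∈ (algebraMap (Algebra.adjoin K {y}) K⟮y⟯).range :=
    trace_mem_range_of_frame (K := K) (F := F) (A := Algebra.adjoin K {y}) (E := K⟮y⟯)
      (integralClosure (Algebra.adjoin K {y}) F) y hA hy hR.deg_one (linElt y) (coe_linElt y)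
      (linElt_irreducible hy) G hG
  obtain ⟨a, ha⟩ := key
  have haF : (a : F) ∈ (Polynomial.aeval y : K[X] →ₐ[K] F).range := by
    rw [← Algebra.adjoin_singleton_eq_range_aeval]
    exact a.2
  obtain ⟨P, hP⟩ := haF
  refine ⟨P, ?_⟩
  rw [← ha]
  exact hP.symm

end Fermat.Agent.H34.MWDiv

end
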