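/-
helper34: P-MW / MW-A1-ART-i (row 819), part 1: the generic core in the `AKLB` setting.

If `G ∈ L` satisfies `ord_w G ≥ -(e_w - 1)` at every height one prime `w` of `B`
(`w ^ e_w ∣ p B` for a nonzero maximal ideal `p` of `A`), then `G` lies in the inverse different
and `Tr_{L/K} G ∈ A`.
-/
import Fermat.Agent.H19.RH.RamIdx
import Fermat.Agent.H19.RH.FrameDict

set_option autoImplicit false
set_option linter.style.haveILetI false

noncomputable section

open IsDedekindDomain AlgebraicCurve
open scoped nonZeroDivisors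

namespace Fermat.Agent.H34.MWDiv

section Core

variable {K F : Type} [Field K] [Field F] [Algebra K F]
variable {B : Type} [CommRing B] [IsDedekindDomain B] [Algebra B F] [IsFractionRing B F]
  [Algebra K B] [IsScalarTower K B F]

/-- The order at the place of `w` of an element of `w ^ n`. -/
theorem ord_algebraMap_ge_of_mem_pow (w : HeightOneSpectrum B) (d : B) (n : ℕ)
    (hd : d ∈ w.asIdeal ^ n) (hd0 : d ≠ 0) :
    (n : ℤ) ≤ (Place.ofHeightOneSpectrum (K := K) (F := F) w).ord (algebraMap B F d) := by
  rw [Fermat.Agent.H29.ord_ofHeightOneSpectrum, HeightOneSpectrum.valuation_of_algebraMap]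
  have h1 : w.intValuation d ≤ WithZero.exp (-(n : ℤ)) :=
    (w.intValuation_le_pow_iff_mem d n).mpr hd
  have h2 : WithZero.log (w.intValuation d) ≤ -(n : ℤ) :=
    (WithZero.log_le_iff_le_exp (w.intValuation_ne_zero d hd0)).mpr h1
  omega

end Core

section AKLB

variable {K F : Type} [Field K] [Field F] [Algebra K F]
variable {A E B : Type} [CommRing A] [IsDedekindDomain A]
  [Field E] [Algebra A E] [IsFractionRing A E]
  [Algebra E F] [Algebra A F] [IsScalarTower A E F] [FiniteDimensional E F]
  [Algebra.IsSeparable E F]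
  [CommRing B] [IsDedekindDomain B] [Algebra A B] [Algebra B F]
  [IsScalarTower A B F] [IsIntegralClosure B A F] [IsFractionRing B F]
  [Algebra K B] [IsScalarTower K B F] [Module.IsTorsionFree A B] [Module.Finite A B]

/-- **Core.**  Integrality of the trace of an element of the inverse different. -/
theorem trace_mem_range_of_ord (G : F)
    (hG : ∀ w : HeightOneSpectrum B, ∃ (p : Ideal A) (e : ℕ), p.IsMaximal ∧ p ≠ ⊥ ∧ e ≠ 0 ∧
      w.asIdeal ^ e ∣ p.map (algebraMap A B) ∧
      -((e : ℤ) - 1) ≤ (Place.ofHeightOneSpectrum (K := K) (F := F) w).ord G) :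
    Algebra.trace E F G ∈ (algebraMap A E).range := by
  -- `G` lies in the dual of `1`
  have hdual : G ∈ FractionalIdeal.dual A E (1 : FractionalIdeal B⁰ F) := by
    have hne : FractionalIdeal.dual A E (1 : FractionalIdeal B⁰ F) ≠ 0 :=
      FractionalIdeal.dual_ne_zero A E one_ne_zero
    have hdiff : (↑(differentIdeal A B) : FractionalIdeal B⁰ F)
        = (FractionalIdeal.dual A E (1 : FractionalIdeal B⁰ F))⁻¹ :=
      coeIdeal_differentIdeal A E F B
    have hdiff' : FractionalIdeal.dual A E (1 : FractionalIdeal B⁰ F)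
        = (↑(differentIdeal A B) : FractionalIdeal B⁰ F)⁻¹ := by
      rw [hdiff, inv_inv]
    have hI : (↑(differentIdeal A B) : FractionalIdeal B⁰ F) ≠ 0 := by
      rw [hdiff]
      exact inv_ne_zero hne
    rw [hdiff', FractionalIdeal.mem_inv_iff hI]
    intro x hx
    obtain ⟨d, hd, rfl⟩ := (FractionalIdeal.mem_coeIdeal _).mp hx
    rw [FractionalIdeal.mem_one_iff]
    have hmem : G * algebraMap B F d ∈ Set.range (algebraMap B F) := by
      apply Fermat.Agent.H19.rh_mem_range_of_forall_ord_nonneg (K := K)
      intro w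
      by_cases h0 : G * algebraMap B F d = 0
      · rw [h0, Place.ord_zero]
      have hG0 : G ≠ 0 := left_ne_zero_of_mul h0
      have hd0' : algebraMap B F d ≠ 0 := right_ne_zero_of_mul h0
      have hd0 : d ≠ 0 := by
        rintro rfl
        exact hd0' (map_zero _)
      obtain ⟨p, e, hpmax, hp, he, hP, hord⟩ := hG w
      haveI := hpmax
      have hdvd : w.asIdeal ^ (e - 1) ∣ differentIdeal A B :=
        pow_sub_one_dvd_differentIdeal_aux A E F w.asIdeal he hp hP
      have hdmem : d ∈ w.asIdeal ^ (e - 1) := Ideal.le_of_dvd hdvd hd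
      have h1 := ord_algebraMap_ge_of_mem_pow (K := K) (F := F) w d (e - 1) hdmem hd0
      rw [Place.ord_mul _ hG0 hd0']
      have he1 : ((e - 1 : ℕ) : ℤ) = (e : ℤ) - 1 := by
        have : 1 ≤ e := Nat.one_le_iff_ne_zero.mpr he
        omega
      omega
    obtain ⟨b, hb⟩ := hmem
    exact ⟨b, hb⟩
  have h := (FractionalIdeal.mem_dual (A := A) (K := E)
    (one_ne_zero : (1 : FractionalIdeal B⁰ F) ≠ 0)).mp hdual 1 (FractionalIdeal.one_mem_one _)
  rw [Algebra.traceForm_apply, mul_one] at h
  exact h

/-- **Frame form.**  `A` is a PID whose image in `F` is `K[y]`, the elements `lin c : A` map to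
`y - c` and are irreducible, all places have degree one: if `ord_v G ≥ -(e_v - 1)` at the places
which are not poles of `y`, the trace of `G` is in `A`. -/
theorem trace_mem_range_of_frame (B : Type) [CommRing B] [IsDedekindDomain B] [Algebra A B]
    [Algebra B F] [IsScalarTower A B F] [IsIntegralClosure B A F] [IsFractionRing B F]
    [Algebra K B] [IsScalarTower K B F] [Module.IsTorsionFree A B] [Module.Finite A B]
    [IsPrincipalIdealRing A] (y : F)
    (hA : Set.range (algebraMap A F) = (Algebra.adjoin K {y} : Set F))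
    (hy : Transcendental K y) (hdeg : ∀ v : Place K F, v.deg = 1)
    (lin : K → A) (hlin : ∀ c, algebraMap A F (lin c) = y - algebraMap K F c)
    (hirr : ∀ c, Irreducible (lin c)) (G : F)
    (hG : ∀ v : Place K F, 0 ≤ v.ord y →
      -((Fermat.Agent.H27.ESD.ramIdx y v : ℤ) - 1) ≤ v.ord G) :
    Algebra.trace E F G ∈ (algebraMap A E).range := by
  obtain ⟨-, hdict2, -⟩ := Fermat.Agent.H19.rhDict' (K := K) (F := F) (A := A) (B := B) y hA
  refine trace_mem_range_of_ord (K := K) (F := F) (A := A) (E := E) (B := B) G ?_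
  intro w
  have hv0 := hdict2 w
  obtain ⟨c, hc⟩ : ∃ c : K,
      0 < (Place.ofHeightOneSpectrum (K := K) (F := F) w).ord (y - algebraMap K F c) := by
    rcases Fermat.Agent.H19.rh_place_cases (Place.ofHeightOneSpectrum (K := K) (F := F) w)
      (hdeg _) hy with h | h
    · omega
    · exact h
  have hexp : 0 < Fermat.Agent.H56.RH.expAt (lin c) w := by
    rw [Fermat.Agent.H19.rh_expAt_pos_iff (K := K) (F := F), hlin]
    exact hc
  have hram : Fermat.Agent.H27.ESD.ramIdx y (Place.ofHeightOneSpectrum (K := K) (F := F) w)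
      = Fermat.Agent.H56.RH.expAt (lin c) w :=
    Fermat.Agent.H19.rh_ramIdx_eq_expAt (lin c) (hlin c) w hexp
  refine ⟨Ideal.span {lin c}, Fermat.Agent.H56.RH.expAt (lin c) w,
    PrincipalIdealRing.isMaximal_of_irreducible (hirr c), ?_, hexp.ne', ?_, ?_⟩
  · rw [Ne, Ideal.span_singleton_eq_bot]
    exact (hirr c).ne_zero
  · rw [Ideal.map_span, Set.image_singleton, ← HeightOneSpectrum.intValuation_le_pow_iff_dvd]
    have hx0 : algebraMap A B (lin c) ≠ 0 := by
      intro h0
      have h1 : algebraMap A F (lin c) = 0 := by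
        rw [IsScalarTower.algebraMap_apply A B F, h0, map_zero]
      have h2 := hc
      rw [← hlin c, h1, Place.ord_zero] at h2
      exact lt_irrefl _ h2
    rw [← WithZero.log_le_iff_le_exp (w.intValuation_ne_zero _ hx0)]
    have hlog : WithZero.log (w.intValuation (algebraMap A B (lin c))) ≤ 0 := by
      rw [WithZero.log_le_iff_le_exp (w.intValuation_ne_zero _ hx0)]
      exact w.intValuation_le_one _
    have hdef : Fermat.Agent.H56.RH.expAt (lin c) w
        = (-(WithZero.log (w.intValuation (algebraMap A B (lin c))))).toNat := rfl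
    rw [hdef]
    omega
  · have h := hG _ hv0
    rw [hram] at h
    exact h

end AKLB

end Fermat.Agent.H34.MWDiv

end
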